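/-
Burnside's theorem in dimension two (helper1): a multiplicatively closed subspace of `End K W`
containing `1`, `dim W = 2`, `K` algebraically closed, with no proper nonzero invariant subspace,
is everything.
-/
import Mathlib

set_option autoImplicit false

namespace Fermat.Agent.Lib.Helper1

open Module

/-- **Burnside, dimension two**, for a multiplicatively closed subspace `B` of `End K W`. -/
theorem burnside_dim_two {K W : Type*} [Field K] [IsAlgClosed K] [AddCommGroup W] [Module K W]
    (hW : finrank K W = 2) (B : Submodule K (Module.End K W)) (hone : (1 : Module.End K W) ∈ B)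
    (hmulB : ∀ a ∈ B, ∀ b ∈ B, a * b ∈ B)
    (hirr : ∀ L : Submodule K W, (∀ b ∈ B, ∀ x ∈ L, b x ∈ L) → L = ⊥ ∨ L = ⊤) : B = ⊤ := by
  have : FiniteDimensional K W := Module.finite_of_finrank_pos (by omega)
  have : Nontrivial W := Module.nontrivial_of_finrank_pos (R := K) (by omega)
  -- the orbit of a nonzero vector under `B` is everything
  have horbit : ∀ w : W, w ≠ 0 → ∀ v : W, ∃ b ∈ B, b w = v := by
    intro w hw v
    let L : Submodule K W := B.map (LinearMap.applyₗ w)
    have hL : ∀ x, x ∈ L ↔ ∃ b ∈ B, b w = x := by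
      intro x
      simp only [L, Submodule.mem_map, LinearMap.applyₗ_apply_apply]
    have hstab : ∀ b ∈ B, ∀ x ∈ L, b x ∈ L := by
      intro b hb x hx
      obtain ⟨b', hb', rfl⟩ := (hL x).1 hx
      exact (hL _).2 ⟨b * b', hmulB b hb b' hb', rfl⟩
    have hwL : w ∈ L := (hL w).2 ⟨1, hone, rfl⟩
    rcases hirr L hstab with h | h
    · rw [h, Submodule.mem_bot] at hwL
      exact absurd hwL hw
    · exact (hL v).1 (h ▸ Submodule.mem_top)
  by_contra hB
  have hBlt : finrank K B < 4 := by
    have h4 : finrank K (Module.End K W) = 4 := by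
      rw [Module.finrank_linearMap, hW]
    have := Submodule.finrank_lt hB
    omega
  by_cases hA : ∃ n ∈ B, n ≠ 0 ∧ ∃ w : W, w ≠ 0 ∧ n w = 0
  · -- Case A: a nonzero non-injective element
    obtain ⟨n, hnB, hn0, w, hw0, hnw⟩ := hA
    -- `Ann w = {f | f w = 0}` has dimension two, and `B + Ann w` is everything
    set ev : Module.End K W →ₗ[K] W := LinearMap.applyₗ w with hevdef
    have hev : ∀ f : Module.End K W, ev f = f w := fun f => rfl
    have hsurj : LinearMap.range ev = ⊤ := by
      rw [LinearMap.range_eq_top]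
      intro v
      obtain ⟨b, -, rfl⟩ := horbit w hw0 v
      exact ⟨b, rfl⟩
    have h4 : finrank K (Module.End K W) = 4 := by
      rw [Module.finrank_linearMap, hW]
    have hkerdim : finrank K (LinearMap.ker ev) = 2 := by
      have h1 := LinearMap.finrank_range_add_finrank_ker ev
      rw [hsurj, finrank_top, hW, h4] at h1
      omega
    have hsup : B ⊔ LinearMap.ker ev = ⊤ := by
      rw [eq_top_iff]
      intro f _
      obtain ⟨b, hb, hbw⟩ := horbit w hw0 (f w)
      have : f = b + (f - b) := by abel
      rw [this]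
      refine Submodule.add_mem_sup hb ?_
      rw [LinearMap.mem_ker, hev, LinearMap.sub_apply, hbw, sub_self]
    have hinf : finrank K ↥(B ⊓ LinearMap.ker ev) ≤ 1 := by
      have h1 := Submodule.finrank_sup_add_finrank_inf_eq B (LinearMap.ker ev)
      rw [hsup, finrank_top, h4, hkerdim] at h1
      omega
    obtain ⟨v₀, hv₀⟩ := (finrank_le_one_iff (K := K) (V := ↥(B ⊓ LinearMap.ker ev))).1 hinf
    have hnker : n ∈ B ⊓ LinearMap.ker ev := ⟨hnB, by rw [SetLike.mem_coe, LinearMap.mem_ker, hev]; exact hnw⟩
    -- `n` is a nonzero multiple of `v₀`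
    obtain ⟨c₀, hc₀⟩ := hv₀ ⟨_, hnker⟩
    have hc₀' : c₀ • (v₀ : Module.End K W) = n := by
      have := congrArg (fun x : ↥(B ⊓ LinearMap.ker ev) => (x : Module.End K W)) hc₀
      simpa using this
    have hc₀0 : c₀ ≠ 0 := by
      rintro rfl
      apply hn0
      rw [← hc₀', zero_smul]
    -- every `b * n` with `b ∈ B` is a multiple of `n`
    have hmul : ∀ b ∈ B, ∃ c : K, b * n = c • n := by
      intro b hb
      have hbn : b * n ∈ B ⊓ LinearMap.ker ev := by
        refine ⟨hmulB b hb n hnB, ?_⟩
        rw [SetLike.mem_coe, LinearMap.mem_ker, hev, Module.End.mul_apply, hnw, map_zero]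
      obtain ⟨c, hc⟩ := hv₀ ⟨_, hbn⟩
      have hc' : c • (v₀ : Module.End K W) = b * n := by
        have := congrArg (fun x : ↥(B ⊓ LinearMap.ker ev) => (x : Module.End K W)) hc
        simpa using this
      refine ⟨c * c₀⁻¹, ?_⟩
      rw [← hc', ← hc₀', smul_smul, mul_assoc, inv_mul_cancel₀ hc₀0, mul_one]
    -- the range of `n` is a proper nonzero stable subspace
    have hstab : ∀ b ∈ B, ∀ x ∈ LinearMap.range n, b x ∈ LinearMap.range n := by
      rintro b hb _ ⟨y, rfl⟩
      obtain ⟨c, hc⟩ := hmul b hb
      refine ⟨c • y, ?_⟩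
      have : b (n y) = (b * n) y := rfl
      rw [this, hc, LinearMap.smul_apply, map_smul]
    rcases hirr _ hstab with h | h
    · apply hn0
      exact LinearMap.range_eq_bot.1 h
    · have hsurjn : Function.Surjective n := LinearMap.range_eq_top.1 h
      have hinjn : Function.Injective n := LinearMap.injective_iff_surjective.2 hsurjn
      exact hw0 (hinjn (by rw [hnw, map_zero]))
  · -- Case B: every nonzero element of `B` is injective, so `B` consists of scalars
    push Not at hA
    have hscalar : ∀ b ∈ B, ∃ c : K, b = c • (1 : Module.End K W) := by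
      intro b hb
      obtain ⟨c, hc⟩ := Module.End.exists_eigenvalue b
      obtain ⟨v, hv⟩ := hc.exists_hasEigenvector
      refine ⟨c, ?_⟩
      by_contra hne
      have hmem : b - c • (1 : Module.End K W) ∈ B :=
        B.sub_mem hb (B.smul_mem c hone)
      have hne' : b - c • (1 : Module.End K W) ≠ 0 := sub_ne_zero.2 hne
      have := hA _ hmem hne' v hv.2
      apply this
      rw [LinearMap.sub_apply, LinearMap.smul_apply, Module.End.one_apply, hv.apply_eq_smul, sub_self]
    obtain ⟨w, hw0⟩ := exists_ne (0 : W)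
    have hle : finrank K W ≤ 1 := by
      rw [finrank_le_one_iff]
      refine ⟨w, fun v => ?_⟩
      obtain ⟨b, hb, rfl⟩ := horbit w hw0 v
      obtain ⟨c, rfl⟩ := hscalar b hb
      exact ⟨c, by rw [LinearMap.smul_apply, Module.End.one_apply]⟩
    omega

end Fermat.Agent.Lib.Helper1
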