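/-
Existence of a "frame" for an absolutely irreducible two-dimensional representation (helper1):
four group elements whose images form a basis of the endomorphism algebra.
-/
import Mathlib
import Fermat.Prelude.Def_GaloisRep_Residual
import Fermat.Agent.Lib.Helper1.Burnside2

set_option autoImplicit false

namespace Fermat.Agent.Lib.Helper1

open Module

/-- Over an algebraically closed field, an irreducible two-dimensional representation of a monoid
admits four elements whose images are linearly independent in `End K W`
(hence a basis, as `dim End K W = 4`). -/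
theorem exists_linearIndependent_of_irreducible {K W G : Type*} [Field K] [IsAlgClosed K]
    [AddCommGroup W] [Module K W] [Monoid G] (hW : finrank K W = 2) (ρ : G →* Module.End K W)
    (hirr : ∀ L : Submodule K W, (∀ g : G, ∀ x ∈ L, ρ g x ∈ L) → L = ⊥ ∨ L = ⊤) :
    ∃ g : Fin 2 × Fin 2 → G, LinearIndependent K (fun i => ρ (g i)) := by
  have hfd : FiniteDimensional K W := Module.finite_of_finrank_pos (by omega)
  set B : Submodule K (Module.End K W) := Submodule.span K (Set.range ρ) with hB
  have hone : (1 : Module.End K W) ∈ B := Submodule.subset_span ⟨1, map_one ρ⟩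
  have hmul : ∀ a ∈ B, ∀ b ∈ B, a * b ∈ B := by
    intro a ha b hb
    induction ha, hb using Submodule.span_induction₂ with
    | mem_mem x y hx hy =>
      obtain ⟨g, rfl⟩ := hx
      obtain ⟨h, rfl⟩ := hy
      exact Submodule.subset_span ⟨g * h, map_mul ρ g h⟩
    | zero_left y hy => rw [zero_mul]; exact B.zero_mem
    | zero_right x hx => rw [mul_zero]; exact B.zero_mem
    | add_left x y z hx hy hz h1 h2 => rw [add_mul]; exact B.add_mem h1 h2
    | add_right x y z hx hy hz h1 h2 => rw [mul_add]; exact B.add_mem h1 h2
    | smul_left r x y hx hy h => rw [smul_mul_assoc]; exact B.smul_mem r h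
    | smul_right r x y hx hy h => rw [mul_smul_comm]; exact B.smul_mem r h
  have hBtop : B = ⊤ := by
    refine burnside_dim_two hW B hone hmul (fun L hL => hirr L ?_)
    intro g x hx
    exact hL (ρ g) (Submodule.subset_span ⟨g, rfl⟩) x hx
  obtain ⟨b, hbsub, hbspan, hbli⟩ := exists_linearIndependent K (Set.range ρ)
  have hspan : ⊤ ≤ Submodule.span K (Set.range (Subtype.val : b → Module.End K W)) := by
    rw [Subtype.range_coe, hbspan, ← hB, hBtop]
  let bas : Basis b K (Module.End K W) := Basis.mk hbli hspan
  have : Fintype b := FiniteDimensional.fintypeBasisIndex bas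
  have hcard : Fintype.card (Fin 2 × Fin 2) = Fintype.card b := by
    rw [← Module.finrank_eq_card_basis bas, Module.finrank_linearMap, hW]
    simp
  let e : Fin 2 × Fin 2 ≃ b := Fintype.equivOfCardEq hcard
  have hmem : ∀ i : Fin 2 × Fin 2, ∃ g : G, ρ g = (e i : Module.End K W) := fun i => hbsub (e i).2
  choose g hg using hmem
  refine ⟨g, ?_⟩
  have : (fun i => ρ (g i)) = (Subtype.val : b → Module.End K W) ∘ e := by
    funext i; exact hg i
  rw [this]
  exact hbli.comp e e.injective

/-- For an absolutely irreducible residual representation there are four Galois elements whose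
images form a linearly independent family (hence a basis) of `End k V`. -/
theorem exists_linearIndependent_of_isAbsolutelyIrreducible {k : Type} [Field k]
    (ρbar : ResidualGaloisRep k) (habs : ρbar.IsAbsolutelyIrreducible) :
    ∃ g : Fin 2 × Fin 2 → (AlgebraicClosure ℚ ≃ₐ[ℚ] AlgebraicClosure ℚ),
      LinearIndependent k (fun i => ρbar.ρ (g i)) := by
  obtain ⟨g, hg⟩ := exists_linearIndependent_of_irreducible
    (ρbar.baseChange (AlgebraicClosure k)).finrank_eq (ρbar.baseChange (AlgebraicClosure k)).ρ habs
  refine ⟨g, ?_⟩
  have h1 : LinearIndependent k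
      (fun i => (ρbar.baseChange (AlgebraicClosure k)).ρ (g i)) :=
    LinearIndependent.restrict_scalars' k hg
  have h2 : (fun i => (ρbar.baseChange (AlgebraicClosure k)).ρ (g i)) =
      (LinearMap.baseChangeHom k (AlgebraicClosure k) ρbar.V ρbar.V) ∘ (fun i => ρbar.ρ (g i)) := by
    funext i; rfl
  rw [h2] at h1
  exact LinearIndependent.of_comp _ h1

end Fermat.Agent.Lib.Helper1
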