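/-
Conditional root wiring (helper1): Fermat's Last Theorem from the non-existence of Frey packages.
-/
import Mathlib
import Fermat.Prelude.Def_FLTPrelim_FreyPackage
import Fermat.Agent.S02

set_option autoImplicit false

namespace Fermat.Agent.Lib.Helper1

/-- If no Frey package exists, Fermat's Last Theorem holds (uses Mathlib's `n = 3`, `n = 4`). -/
theorem flt_of_no_freyPackage (h : FreyPackage → False) : FermatLastTheorem := by
  apply FermatLastTheorem.of_odd_primes
  intro p pp hodd
  by_cases hp5 : 5 ≤ p
  · rw [fermatLastTheoremFor_iff_int]
    intro a b c ha hb hc H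
    obtain ⟨P⟩ := Fermat.Agent.S02.result a b c ha hb hc p pp hp5 H
    exact h P
  · have hp2 : 2 ≤ p := pp.two_le
    have hp3 : p = 3 := by
      have : p ≠ 2 := by
        rintro rfl
        exact absurd hodd (by decide)
      have : p ≠ 4 := by
        rintro rfl
        exact absurd pp (by decide)
      omega
    subst hp3
    exact fermatLastTheoremThree

/-- The elementary form of the root statement, from the non-existence of Frey packages. -/
theorem root_of_no_freyPackage (h : FreyPackage → False) (n : ℕ) (hn : 3 ≤ n) (a b c : ℕ)
    (ha : 0 < a) (hb : 0 < b) (hc : 0 < c) : a ^ n + b ^ n ≠ c ^ n :=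
  flt_of_no_freyPackage h n hn a b c ha.ne' hb.ne' hc.ne'

end Fermat.Agent.Lib.Helper1
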